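import Fermat.Agent.GS.Iface
import Fermat.Agent.GR.F.Normalize

/-!
# S15-ATP, bridge layer (`Q̄`-statements): definitions and the calculus of Gauss units

`GUnit A N y` : `y` is a unit at the Gauss valuation of `FF Q̄ N` attached to `A`.
`IFix A y`    : all the coefficients of `y` lie in the inertia field of `A`.
-/

set_option autoImplicit false

noncomputable section

namespace Fermat.Agent.S15.ATP

open Fermat.Agent.GR Fermat.Agent.GR.E Fermat.Agent.GS ModularCurve

/-- `y` is a unit at the Gauss valuation of `FF Q̄ N` attached to `A`. -/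
def GUnit (A : ValuationSubring Qb) (N : ℕ) (y : LaurentSeries Qb) : Prop :=
  ∃ a b : LaurentSeries Qb, a ∈ FF Qb N ∧ b ∈ FF Qb N ∧ IsPrim A a ∧ IsPrim A b ∧ y * b = a

/-- the coefficients of `y` lie in the inertia field of `A`. -/
def IFix (A : ValuationSubring Qb) (y : LaurentSeries Qb) : Prop :=
  ∀ σ : Qb ≃ₐ[ℚ] Qb, σ ∈ A.inertiaSubgroupIn ℚ → gal σ y = y

end Fermat.Agent.S15.ATP
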