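import Fermat.Agent.S15.ATP.Brg.Defs
import Fermat.Agent.GR.F.FormalNorm
import Fermat.Agent.GR.I.CharTheoryMk

/-!
# S15-ATP, bridge layer, file `HeckeP`: the multiplicative Hecke operator `T_ℓ` preserves Gauss units (`ℓ ≠ p`)

* `isPrimitiveRoot_residue`: `ζ` is a unit of `A` (`GR.exists_unit_of_pow_eq_one`-type argument: `v(ζ)^ℓ = 1`); its
  reduction `ζ̄` satisfies `ζ̄ ^ ℓ = 1`; `ℓ` prime, so `ζ̄` is primitive unless `ζ̄ = 1` (`IsPrimitiveRoot.mk_of_lt` /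
  `orderOf_eq_prime`); if `ζ̄ = 1` then `ζ - 1 ∈ 𝔪_A`, but `∏_{0 < j < ℓ} (1 - ζ^j) = ℓ`
  (`IsPrimitiveRoot.pow_sub_one_eq`, `Polynomial.cyclotomic` evaluated at `1`, or: `ℓ = ∑_{i<ℓ} ζ̄^i·…`: in the residue field
  `0 = (X^ℓ - 1)/(X - 1)` evaluated at `ζ` i.e. `∑_{i < ℓ} ζ^i = 0` (`IsPrimitiveRoot.geom_sum_eq_zero`), whose reduction
  is `ℓ · 1`), and `ℓ` is a unit of `A` since `ℓ ≠ p` (`a ℓ + b p = 1`, `p ∈ 𝔪_A`).
* `isPrim_heckeMulT`: `f = incl A f₀`, `red A f₀ ≠ 0` (`GR.isPrim_iff`); `incl = coeffMap A.subtype`, `red = coeffMap (residue A)`;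
  `GR.coeffMap_heckeMulT` twice; `GR.heckeMulT_ne_zero` over the residue field.
* `GUnit.heckeMulT`: `heckeMulT_mul`; membership in `FF`: `((GR.I.charTheory N).heckeStable ι n ℓ ζ hℓ hℓN hζ).1`
  (see `GR/I/Build.lean`, `heckeStable`; `ι : Q̄ →+* ℂ` from `GS.nonempty_Qbar_hom`).
-/

set_option autoImplicit false

noncomputable section

namespace Fermat.Agent.S15.ATP

open Fermat.Agent.GR Fermat.Agent.GR.E Fermat.Agent.GS ModularCurve IsLocalRing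

/-- a primitive `ℓ`-th root of unity stays primitive in the residue field of `A` (`ℓ ≠ p` primes). -/
theorem isPrimitiveRoot_residue {p ℓ : ℕ} (hp : p.Prime) (hℓ : ℓ.Prime) (hℓp : ℓ ≠ p)
    {A : ValuationSubring Qb} (hA : A.LiesOverPrime p) (ζ : Qbˣ) (hζ : IsPrimitiveRoot ζ ℓ) :
    ∃ z : (↥A)ˣ, Units.map (A.subtype : ↥A →* Qb) z = ζ ∧
      IsPrimitiveRoot (Units.map (residue A : ↥A →* ResidueField A) z) ℓ := by
  have hℓ0 : ℓ ≠ 0 := hℓ.ne_zero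
  have hmem : ∀ ξ : Qbˣ, ξ ^ ℓ = 1 → (ξ : Qb) ∈ A := by
    intro ξ hξ
    rw [← A.valuation_le_one_iff]
    have h1 : A.valuation (ξ : Qb) ^ ℓ = 1 := by
      rw [← map_pow, ← Units.val_pow_eq_pow_val, hξ, Units.val_one, map_one]
    exact le_of_eq ((pow_eq_one_iff.mp h1).resolve_right hℓ0)
  have hζ1 : ζ ^ ℓ = 1 := hζ.pow_eq_one
  have hζ' : ζ⁻¹ ^ ℓ = 1 := by rw [inv_pow, hζ1, inv_one]
  let z : (↥A)ˣ :=
    { val := ⟨ζ, hmem ζ hζ1⟩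
      inv := ⟨(ζ⁻¹ : Qbˣ), hmem ζ⁻¹ hζ'⟩
      val_inv := by
        apply Subtype.ext
        simp
      inv_val := by
        apply Subtype.ext
        simp }
  have hzc : ((z : ↥A) : Qb) = (ζ : Qb) := rfl
  refine ⟨z, Units.ext rfl, ?_⟩
  have : Fact ℓ.Prime := ⟨hℓ⟩
  have : Fact p.Prime := ⟨hp⟩
  have hz : z ^ ℓ = 1 := by
    apply Units.ext
    apply Subtype.ext
    have := congrArg (fun x : Qbˣ => (x : Qb)) hζ1
    simpa using this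
  have h1 : (Units.map (residue A : ↥A →* ResidueField A) z) ^ ℓ = 1 := by
    rw [← map_pow, hz, map_one]
  have hne : Units.map (residue A : ↥A →* ResidueField A) z ≠ 1 := by
    intro h
    have hr : residue A (z : ↥A) = 1 := congrArg Units.val h
    have hsum : ∑ i ∈ Finset.range ℓ, (ζ : Qb) ^ i = 0 :=
      (IsPrimitiveRoot.coe_units_iff.mpr hζ).geom_sum_eq_zero hℓ.one_lt
    have hsumA : ∑ i ∈ Finset.range ℓ, (z : ↥A) ^ i = 0 := by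
      apply Subtype.ext
      have h0 := map_sum A.subtype (fun i => (z : ↥A) ^ i) (Finset.range ℓ)
      simp only [map_pow] at h0
      exact h0.trans hsum
    have h2 := congrArg (residue A) hsumA
    rw [map_sum, map_zero] at h2
    simp only [map_pow, hr, one_pow, Finset.sum_const, Finset.card_range, nsmul_eq_mul,
      mul_one] at h2
    have := charP_residueField A hA
    have h3 : p ∣ ℓ := (CharP.cast_eq_zero_iff (ResidueField A) p ℓ).mp h2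
    exact hℓp ((Nat.prime_dvd_prime_iff_eq hp hℓ).mp h3).symm
  have ho := orderOf_eq_prime h1 hne
  have := IsPrimitiveRoot.orderOf (Units.map (residue A : ↥A →* ResidueField A) z)
  rwa [ho] at this

theorem isPrim_heckeMulT {p ℓ : ℕ} [NeZero ℓ] (hp : p.Prime) (hℓ : ℓ.Prime) (hℓp : ℓ ≠ p)
    {A : ValuationSubring Qb} (hA : A.LiesOverPrime p) (ζ : Qbˣ) (hζ : IsPrimitiveRoot ζ ℓ)
    {f : LaurentSeries Qb} (hf : IsPrim A f) : IsPrim A (heckeMulT ℓ ζ f) := by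
  obtain ⟨z, hz, hzr⟩ := isPrimitiveRoot_residue hp hℓ hℓp hA ζ hζ
  obtain ⟨f₀, rfl, hf₀⟩ := (isPrim_iff A).mp hf
  rw [isPrim_iff]
  refine ⟨GR.heckeMulT ℓ z f₀, ?_, ?_⟩
  · rw [← hz]
    exact coeffMap_heckeMulT A.subtype ℓ z f₀
  · have h : red A (GR.heckeMulT ℓ z f₀)
        = GR.heckeMulT ℓ (Units.map (residue A : ↥A →* ResidueField A) z) (red A f₀) :=
      coeffMap_heckeMulT (residue A) ℓ z f₀
    rw [h]
    exact heckeMulT_ne_zero ℓ _ hzr hf₀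

theorem heckeMulT_mem_FF {N ℓ : ℕ} [NeZero N] [NeZero ℓ] (hℓ : ℓ.Prime) (hℓN : ¬ ℓ ∣ N) (ζ : Qbˣ)
    (hζ : IsPrimitiveRoot ζ ℓ) {f : LaurentSeries Qb} (hf : f ∈ FF Qb N) :
    heckeMulT ℓ ζ f ∈ FF Qb N := by
  obtain ⟨ι⟩ : Nonempty (Qb →+* ℂ) :=
    ⟨(IsAlgClosed.lift (R := ℚ) (S := Qb) (M := ℂ) : Qb →ₐ[ℚ] ℂ).toRingHom⟩
  exact ((GR.I.charTheory N).heckeStable ι 1 ℓ ζ hℓ hℓN hζ).1 f hf

theorem GUnit.heckeMulT {p ℓ N : ℕ} [NeZero N] [NeZero ℓ] (hp : p.Prime) (hℓ : ℓ.Prime)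
    (hℓp : ℓ ≠ p) (hℓN : ¬ ℓ ∣ N) {A : ValuationSubring Qb} (hA : A.LiesOverPrime p) (ζ : Qbˣ)
    (hζ : IsPrimitiveRoot ζ ℓ) {y : LaurentSeries Qb} (hy : GUnit A N y) :
    GUnit A N (heckeMulT ℓ ζ y) := by
  obtain ⟨a, b, ha, hb, hpa, hpb, hab⟩ := hy
  refine ⟨GR.heckeMulT ℓ ζ a, GR.heckeMulT ℓ ζ b, heckeMulT_mem_FF hℓ hℓN ζ hζ ha,
    heckeMulT_mem_FF hℓ hℓN ζ hζ hb, isPrim_heckeMulT hp hℓ hℓp hA ζ hζ hpa,
    isPrim_heckeMulT hp hℓ hℓp hA ζ hζ hpb, ?_⟩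
  rw [← heckeMulT_mul ℓ ζ hζ, hab]

/-- `T_ℓ` preserves `IFix` (`GR.coeffMap_heckeMulT`, `gal σ = coeffMap σ`, independence of the primitive root:
`heckeMulT` is `qExpand * normT` and `GR.normT_eq_of_isPrimitiveRoot`). -/
theorem IFix.heckeMulT {ℓ : ℕ} [NeZero ℓ] {A : ValuationSubring Qb} (ζ : Qbˣ)
    (hζ : IsPrimitiveRoot ζ ℓ) {y : LaurentSeries Qb} (hy : IFix A y) :
    IFix A (heckeMulT ℓ ζ y) := by
  intro σ hσ
  have h1 : gal σ (GR.heckeMulT ℓ ζ y)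
      = GR.heckeMulT ℓ (Units.map (((σ : Qb →+* Qb)) : Qb →* Qb) ζ) (gal σ y) :=
    coeffMap_heckeMulT (σ : Qb →+* Qb) ℓ ζ y
  rw [h1, hy σ hσ]
  have hζ' : IsPrimitiveRoot (Units.map (((σ : Qb →+* Qb)) : Qb →* Qb) ζ) ℓ :=
    hζ.map_of_injective (Units.map_injective (f := (((σ : Qb →+* Qb)) : Qb →* Qb)) σ.injective)
  unfold GR.heckeMulT
  rw [normT_eq_of_isPrimitiveRoot ℓ _ ζ hζ' hζ]

end Fermat.Agent.S15.ATP
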