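import Fermat.Agent.S15.ATP.Brg.Defs
import Fermat.Agent.GR.S.Hecke.Norm
import Fermat.Agent.GS.WQ

/-!
# S15-ATP, bridge layer, file `HeckeW`: the multiplicative Hecke operator commutes with `w_Q`

`heckeMulT ℓ ζ u = Nm_α (β u)` (`GR.S.norm_heckeBeta`), `α β : F_N → F_{N ℓ}`, `α` = inclusion, `β = qExpand ℓ`.
Let `N = Q * N1`, `w = wQ Q̄ Q N1`, `w' = wQ Q̄ Q (N1 * ℓ)` (level `Q * (N1 * ℓ) = N * ℓ`).  Then `w' ∘ α = α ∘ w` and
`w' ∘ β = β ∘ w` (check on the generators `gen d = j(q^d)`, `d ∣ N`: `GT.EMB.ringHom_ext_gen`, `wQ_gen`,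
`alIdx_mul`: `alIdx Q (a b) = (Q / a) b` for `a ∣ Q`, `b ∣ N1`), and the norm commutes with a pair of compatible
automorphisms (`Algebra.norm_eq_of_equiv_equiv`).  Transport between `modularFunctionFieldBar M` and `FF Q̄ M`:
`GR.S.bar_eq_FF`, `IntermediateField.equivOfEq`; transport along `Q * N1 * ℓ = Q * (N1 * ℓ)`: prove the existence of
`w'` for a level `M` with `h : M = Q * N1'` by `subst` (cf. `GS.exists_swap_aux`).
-/

set_option autoImplicit false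

noncomputable section

namespace Fermat.Agent.S15.ATP

open Fermat.Agent.GR Fermat.Agent.GR.E Fermat.Agent.GS Fermat.Agent.GT.EMB ModularCurve

/-- `w_Q` at level `Q (N1 ℓ)` restricts to `w_Q` at level `Q N1`. -/
theorem HeckeW_wQ_incl {K : Type} [Field K] (ι : K →+* ℂ) {Q N1 ℓ : ℕ} [NeZero (Q * N1)]
    [NeZero (Q * (N1 * ℓ))] (hcop : Q.Coprime N1) (hcop' : Q.Coprime (N1 * ℓ))
    (y : FF K (Q * N1)) (h : (y : LaurentSeries K) ∈ FF K (Q * (N1 * ℓ))) :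
    ((wQ K Q (N1 * ℓ) ⟨(y : LaurentSeries K), h⟩ : FF K (Q * (N1 * ℓ))) : LaurentSeries K) =
      (wQ K Q N1 y : FF K (Q * N1)) := by
  have hdvd : Q * N1 ∣ Q * (N1 * ℓ) := Nat.mul_dvd_mul_left Q (Dvd.intro ℓ rfl)
  have hle : FF K (Q * N1) ≤ FF K (Q * (N1 * ℓ)) := FF_mono K hdvd
  let φ₁ : FF K (Q * N1) →+* LaurentSeries K :=
    ((FF K (Q * (N1 * ℓ))).val.toRingHom.comp (wQ K Q (N1 * ℓ)).toAlgHom.toRingHom).comp
      (IntermediateField.inclusion hle).toRingHom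
  let φ₂ : FF K (Q * N1) →+* LaurentSeries K :=
    (FF K (Q * N1)).val.toRingHom.comp (wQ K Q N1).toAlgHom.toRingHom
  have h12 : φ₁ = φ₂ := by
    apply ringHom_ext_gen (Q * N1)
    · intro c
      change ((wQ K Q (N1 * ℓ) (algebraMap K (FF K (Q * (N1 * ℓ))) c) : FF K (Q * (N1 * ℓ))) :
        LaurentSeries K) = ((wQ K Q N1 (algebraMap K (FF K (Q * N1)) c) : FF K (Q * N1)) :
        LaurentSeries K)
      rw [AlgEquiv.commutes, AlgEquiv.commutes]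
      rfl
    · intro d hd
      change ((wQ K Q (N1 * ℓ) (gen K (Q * (N1 * ℓ)) d (hd.trans hdvd)) : FF K (Q * (N1 * ℓ))) :
        LaurentSeries K) = ((wQ K Q N1 (gen K (Q * N1) d hd) : FF K (Q * N1)) : LaurentSeries K)
      rw [wQ_gen ι Q (N1 * ℓ) hcop', wQ_gen ι Q N1 hcop]
  exact DFunLike.congr_fun h12 y

/-- `w_Q` commutes with `t ↦ t ^ ℓ`. -/
theorem HeckeW_wQ_qExpand {K : Type} [Field K] (ι : K →+* ℂ) {Q N1 ℓ : ℕ} [NeZero ℓ]
    [NeZero (Q * N1)] [NeZero (Q * (N1 * ℓ))] (hcop : Q.Coprime N1) (hcop' : Q.Coprime (N1 * ℓ))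
    (y : FF K (Q * N1)) (h : qExpand K ℓ (y : LaurentSeries K) ∈ FF K (Q * (N1 * ℓ))) :
    ((wQ K Q (N1 * ℓ) ⟨qExpand K ℓ (y : LaurentSeries K), h⟩ : FF K (Q * (N1 * ℓ))) :
      LaurentSeries K) = qExpand K ℓ ((wQ K Q N1 y : FF K (Q * N1)) : LaurentSeries K) := by
  have hdvd : ℓ * (Q * N1) ∣ Q * (N1 * ℓ) := by
    rw [show ℓ * (Q * N1) = Q * (N1 * ℓ) by ring]
  let φ₁ : FF K (Q * N1) →+* LaurentSeries K :=
    ((FF K (Q * (N1 * ℓ))).val.toRingHom.comp (wQ K Q (N1 * ℓ)).toAlgHom.toRingHom).comp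
      (Level_expHom K ℓ (Q * N1) (Q * (N1 * ℓ)) hdvd)
  let φ₂ : FF K (Q * N1) →+* LaurentSeries K :=
    (qExpand K ℓ).comp ((FF K (Q * N1)).val.toRingHom.comp (wQ K Q N1).toAlgHom.toRingHom)
  have h12 : φ₁ = φ₂ := by
    apply ringHom_ext_gen (Q * N1)
    · intro c
      change ((wQ K Q (N1 * ℓ) (Level_expHom K ℓ (Q * N1) (Q * (N1 * ℓ)) hdvd
        (algebraMap K (FF K (Q * N1)) c)) : FF K (Q * (N1 * ℓ))) : LaurentSeries K) =
        qExpand K ℓ ((wQ K Q N1 (algebraMap K (FF K (Q * N1)) c) : FF K (Q * N1)) :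
          LaurentSeries K)
      rw [Level_expHom_algebraMap, AlgEquiv.commutes, AlgEquiv.commutes]
      exact (Level_qExpand_algebraMap ℓ c).symm
    · intro d hd
      change ((wQ K Q (N1 * ℓ) (Level_expHom K ℓ (Q * N1) (Q * (N1 * ℓ)) hdvd
        (gen K (Q * N1) d hd)) : FF K (Q * (N1 * ℓ))) : LaurentSeries K) =
        qExpand K ℓ ((wQ K Q N1 (gen K (Q * N1) d hd) : FF K (Q * N1)) : LaurentSeries K)
      rw [Level_expHom_gen, wQ_gen ι Q (N1 * ℓ) hcop', wQ_gen ι Q N1 hcop, qExpand_jd]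
      obtain ⟨a, b, ha, hb, rfl⟩ := ALIdx_exists_mul hd
      rw [alIdx_mul hcop ha hb, show ℓ * (a * b) = a * (b * ℓ) by ring,
        alIdx_mul hcop' ha (Nat.mul_dvd_mul_right hb ℓ)]
      congr 1
      ring
  exact DFunLike.congr_fun h12 y

/-- the norm commutes with a compatible pair of automorphisms. -/
theorem HeckeW_norm_comm {K E E' : Type*} [Field K] [Field E] [Field E'] [Algebra K E]
    [Algebra K E'] (α β : E →ₐ[K] E') (w : E ≃ₐ[K] E) (w' : E' ≃ₐ[K] E')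
    (hα : ∀ x, w' (α x) = α (w x)) (hβ : ∀ x, w' (β x) = β (w x)) (u : E) :
    letI := AlgebraicCurve.algebraAlong α
    Algebra.norm E (β (w u)) = w (Algebra.norm E (β u)) := by
  letI := AlgebraicCurve.algebraAlong α
  have h := Algebra.norm_eq_of_equiv_equiv (A₁ := E) (B₁ := E') (A₂ := E) (B₂ := E')
    (w : E ≃+* E) (w' : E' ≃+* E') (by
      ext x
      exact (hα x).symm) (β u)
  rw [h]
  have h2 : (w' : E' ≃+* E') (β u) = β (w u) := hβ u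
  rw [h2]
  exact ((w : E ≃+* E).apply_symm_apply _).symm

theorem wQ_heckeMulT {Q N1 ℓ : ℕ} [NeZero (Q * N1)] [NeZero ℓ] (hcop : Q.Coprime N1)
    (hℓ : ℓ.Prime) (hℓN : ¬ ℓ ∣ Q * N1) (ζ : Qbˣ) (hζ : IsPrimitiveRoot ζ ℓ)
    (u v : FF Qb (Q * N1)) (hv : (v : LaurentSeries Qb) = heckeMulT ℓ ζ (u : LaurentSeries Qb)) :
    ((wQ Qb Q N1 v : FF Qb (Q * N1)) : LaurentSeries Qb) =
      heckeMulT ℓ ζ ((wQ Qb Q N1 u : FF Qb (Q * N1)) : LaurentSeries Qb) := by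
  obtain ⟨ι⟩ := nonempty_Qbar_hom
  have hNe : NeZero (Q * (N1 * ℓ)) :=
    ⟨by rw [← mul_assoc]; exact mul_ne_zero (NeZero.ne _) (NeZero.ne ℓ)⟩
  have hcop' : Q.Coprime (N1 * ℓ) := by
    refine Nat.Coprime.mul_right hcop ?_
    exact ((Nat.Prime.coprime_iff_not_dvd hℓ).2 fun h => hℓN (h.mul_right N1)).symm
  have h1 : modularFunctionFieldBar (Q * N1) = FF Qb (Q * N1) := GR.S.bar_eq_FF _
  have h2 : modularFunctionFieldBar (Q * N1 * ℓ) = FF Qb (Q * (N1 * ℓ)) := by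
    rw [GR.S.bar_eq_FF, mul_assoc]
  let e : modularFunctionFieldBar (Q * N1) ≃ₐ[Qb] FF Qb (Q * N1) := IntermediateField.equivOfEq h1
  let e' : modularFunctionFieldBar (Q * N1 * ℓ) ≃ₐ[Qb] FF Qb (Q * (N1 * ℓ)) :=
    IntermediateField.equivOfEq h2
  let w : modularFunctionFieldBar (Q * N1) ≃ₐ[Qb] modularFunctionFieldBar (Q * N1) :=
    (e.trans (wQ Qb Q N1)).trans e.symm
  let w' : modularFunctionFieldBar (Q * N1 * ℓ) ≃ₐ[Qb] modularFunctionFieldBar (Q * N1 * ℓ) :=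
    (e'.trans (wQ Qb Q (N1 * ℓ))).trans e'.symm
  have hw : ∀ x : modularFunctionFieldBar (Q * N1),
      ((w x : modularFunctionFieldBar (Q * N1)) : LaurentSeries Qb) = (wQ Qb Q N1 (e x) : FF Qb _) :=
    fun x => rfl
  have hα : ∀ x, w' (heckeAlphaBar Qb (Q * N1) ℓ x) = heckeAlphaBar Qb (Q * N1) ℓ (w x) := by
    intro x
    apply Subtype.ext
    rw [coe_heckeAlphaBar, hw]
    exact HeckeW_wQ_incl ι hcop hcop' (e x) _
  have hβ : ∀ x, w' (heckeBetaBar Qb (Q * N1) ℓ x) = heckeBetaBar Qb (Q * N1) ℓ (w x) := by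
    intro x
    apply Subtype.ext
    rw [coe_heckeBetaBar, hw]
    exact HeckeW_wQ_qExpand ι hcop hcop' (e x) _
  have hn := HeckeW_norm_comm (heckeAlphaBar Qb (Q * N1) ℓ) (heckeBetaBar Qb (Q * N1) ℓ) w w'
    hα hβ (e.symm u)
  have k1 := GR.S.norm_heckeBeta (Q * N1) ℓ hℓ hℓN ζ hζ (e.symm u)
  have k2 := GR.S.norm_heckeBeta (Q * N1) ℓ hℓ hℓN ζ hζ (w (e.symm u))
  have hu : ((e.symm u : modularFunctionFieldBar (Q * N1)) : LaurentSeries Qb) = u := rfl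
  rw [hu, ← hv] at k1
  have hwu : ((w (e.symm u) : modularFunctionFieldBar (Q * N1)) : LaurentSeries Qb) =
      (wQ Qb Q N1 u : FF Qb _) := rfl
  rw [hwu, hn] at k2
  rw [← k2, hw]
  congr 2
  exact Subtype.ext k1.symm

end Fermat.Agent.S15.ATP
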