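import Fermat.Agent.S15.ATP.Brg.Defs
import Fermat.Agent.GT.Brg.Defs
import Fermat.Agent.GR.E.BR7

/-!
# S15-ATP, bridge layer, file `Prim`: the calculus of primitive series and Gauss units
-/

set_option autoImplicit false

noncomputable section

namespace Fermat.Agent.S15.ATP

open Fermat.Agent.GR Fermat.Agent.GR.E Fermat.Agent.GS Fermat.Agent.GT.Brg ModularCurve

variable {Ω : Type*} [Field Ω] {A : ValuationSubring Ω}

/-- Gauss' lemma. -/
theorem Prim_mul {f g : LaurentSeries Ω} (hf : IsPrim A f) (hg : IsPrim A g) :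
    IsPrim A (f * g) := by
  obtain ⟨f', rfl, hf'⟩ := (isPrim_iff A).mp hf
  obtain ⟨g', rfl, hg'⟩ := (isPrim_iff A).mp hg
  rw [← map_mul, isPrim_incl_iff, map_mul]
  exact mul_ne_zero hf' hg'

theorem Prim_one : IsPrim A (1 : LaurentSeries Ω) := by
  rw [← map_one (incl A), isPrim_incl_iff, map_one]
  exact one_ne_zero

theorem Prim_pow {f : LaurentSeries Ω} (hf : IsPrim A f) (e : ℕ) : IsPrim A (f ^ e) := by
  induction e with
  | zero => rw [pow_zero]; exact Prim_one
  | succ e ih => rw [pow_succ]; exact Prim_mul ih hf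

theorem Prim_ne_zero {f : LaurentSeries Ω} (hf : IsPrim A f) : f ≠ 0 := by
  obtain ⟨f', rfl, hf'⟩ := (isPrim_iff A).mp hf
  intro h
  apply hf'
  rw [show f' = 0 from incl_injective A (by rw [h, map_zero]), map_zero]

theorem Prim_C_mul_coeff (κ : Ω) (f : LaurentSeries Ω) (n : ℤ) :
    (HahnSeries.C κ * f).coeff n = κ * f.coeff n := by
  rw [HahnSeries.C_mul_eq_smul, HahnSeries.coeff_smul, smul_eq_mul]

/-- a unit constant times a primitive series is primitive. -/
theorem Prim_C_mul {κ : Ω} (hκ : A.valuation κ = 1) {f : LaurentSeries Ω} (hf : IsPrim A f) :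
    IsPrim A (HahnSeries.C κ * f) := by
  obtain ⟨hi, n, hn⟩ := hf
  refine ⟨fun m => ?_, n, fun h => hn ?_⟩
  · rw [Prim_C_mul_coeff, ← A.valuation_le_one_iff, map_mul, hκ, one_mul, A.valuation_le_one_iff]
    exact hi m
  · rw [Prim_C_mul_coeff, ValuationSubring.mem_nonunits_iff, map_mul, hκ, one_mul] at h
    exact (ValuationSubring.mem_nonunits_iff A).2 h

/-- if `f` and `κ f` are primitive then `κ` is a unit. -/
theorem Prim_unit_of_C_mul {κ : Ω} {f : LaurentSeries Ω} (hf : IsPrim A f)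
    (h : IsPrim A (HahnSeries.C κ * f)) : A.valuation κ = 1 := by
  obtain ⟨hi, n, hn⟩ := hf
  obtain ⟨hi', m, hm⟩ := h
  apply le_antisymm
  · have h1 := hi' n
    rw [Prim_C_mul_coeff, ← A.valuation_le_one_iff, map_mul] at h1
    have h2 : A.valuation (f.coeff n) = 1 := by
      apply le_antisymm ((A.valuation_le_one_iff _).2 (hi n))
      rw [ValuationSubring.mem_nonunits_iff, not_lt] at hn
      exact hn
    rwa [h2, mul_one] at h1
  · rw [Prim_C_mul_coeff, ValuationSubring.mem_nonunits_iff, not_lt, map_mul] at hm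
    have h2 : A.valuation (f.coeff m) ≤ 1 := (A.valuation_le_one_iff _).2 (hi m)
    calc (1 : A.ValueGroup) ≤ A.valuation κ * A.valuation (f.coeff m) := hm
      _ ≤ A.valuation κ * 1 := by gcongr
      _ = A.valuation κ := mul_one _

/-- primitive over `A ∩ L` implies primitive over `A`. -/
theorem Prim_coeffMap {A : ValuationSubring Qb} (L : IntermediateField ℚ Qb) {f : LaurentSeries L}
    (hf : IsPrim (RL A L) f) : IsPrim A (coeffMap (algebraMap L Qb) f) := by
  obtain ⟨hi, n, hn⟩ := hf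
  refine ⟨fun m => hi m, n, fun h => hn ?_⟩
  rw [coeffMap_coeff] at h
  exact (BR7_mem_nonunits_comap _ _ _).2 h

theorem Int_coeffMap {A : ValuationSubring Qb} (L : IntermediateField ℚ Qb) {f : LaurentSeries L}
    (hf : IsInt (RL A L) f) : IsInt A (coeffMap (algebraMap L Qb) f) := fun n => hf n

section GU

variable {A : ValuationSubring Qb} {N : ℕ} {y y' : LaurentSeries Qb}

theorem GUnit.ne_zero (h : GUnit A N y) : y ≠ 0 := by
  obtain ⟨a, b, -, -, ha, -, hy⟩ := h
  rintro rfl
  rw [zero_mul] at hy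
  exact Prim_ne_zero ha hy.symm

theorem GUnit.mem (h : GUnit A N y) : y ∈ FF Qb N := by
  obtain ⟨a, b, ha, hb, -, hb', hy⟩ := h
  have : y = a / b := by rw [← hy, mul_div_cancel_right₀ _ (Prim_ne_zero hb')]
  rw [this]
  exact div_mem ha hb

theorem gUnit_one : GUnit A N 1 :=
  ⟨1, 1, one_mem _, one_mem _, Prim_one, Prim_one, one_mul 1⟩

theorem GUnit.mul (h : GUnit A N y) (h' : GUnit A N y') : GUnit A N (y * y') := by
  obtain ⟨a, b, ha, hb, ha', hb', hy⟩ := h
  obtain ⟨c, d, hc, hd, hc', hd', hy'⟩ := h'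
  exact ⟨a * c, b * d, mul_mem ha hc, mul_mem hb hd, Prim_mul ha' hc', Prim_mul hb' hd', by
    rw [← hy, ← hy']; ring⟩

theorem GUnit.inv (h : GUnit A N y) : GUnit A N y⁻¹ := by
  have h0 := h.ne_zero
  obtain ⟨a, b, ha, hb, ha', hb', hy⟩ := h
  exact ⟨b, a, hb, ha, hb', ha', by rw [← hy]; field_simp⟩

theorem GUnit.div (h : GUnit A N y) (h' : GUnit A N y') : GUnit A N (y / y') := by
  rw [div_eq_mul_inv]
  exact h.mul h'.inv

theorem GUnit.pow (h : GUnit A N y) (e : ℕ) : GUnit A N (y ^ e) := by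
  induction e with
  | zero => rw [pow_zero]; exact gUnit_one
  | succ e ih => rw [pow_succ]; exact ih.mul h

/-- a constant which is a Gauss unit times a Gauss unit ... : if `y` and `κ y` are Gauss units then
`κ` is a unit of `A`. -/
theorem GUnit.const_unit {κ : Qb} (h : GUnit A N y) (h' : GUnit A N (HahnSeries.C κ * y)) :
    A.valuation κ = 1 := by
  obtain ⟨a, b, -, -, ha', hb', hy⟩ := h
  obtain ⟨c, d, -, -, hc', hd', hy'⟩ := h'
  refine Prim_unit_of_C_mul (Prim_mul ha' hd') ?_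
  have e : HahnSeries.C κ * (a * d) = c * b := by rw [← hy, ← hy']; ring
  rw [e]
  exact Prim_mul hc' hb'

theorem gUnit_C {κ : Qb} (hκ : A.valuation κ = 1) : GUnit A N (HahnSeries.C κ) :=
  ⟨HahnSeries.C κ * 1, 1, by rw [mul_one]; exact C_mem_FF κ, one_mem _, Prim_C_mul hκ Prim_one,
    Prim_one, rfl⟩

end GU

end Fermat.Agent.S15.ATP
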