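import Fermat.Agent.S15.ATP.Brg.Prim
import Fermat.Agent.GT.Brg.Field
import Fermat.Agent.GT.Brg.Descent
import Fermat.Agent.GT.W.Unram
import Fermat.Agent.GT.Base
import Fermat.Agent.GR.E.BR5

/-!
# S15-ATP, bridge layer, file `Val`: functions with coefficients in the inertia field

* `exists_defOver`: `y ∈ FF Q̄ N` is defined over a number field `L₀` (`GR.E.BR3_single`).  Put
  `L := {x ∈ L₀ | x fixed by the inertia group}` (an intermediate field, `≤ L₀`, hence finite over `ℚ`:
  `IntermediateField.finiteDimensional_of_le` / `FiniteDimensional.of_injective` along `inclusion`).  All the coefficients of `y` lie in `L`;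
  `GR.C.exists_coeffMap_eq` gives `y₀ : LaurentSeries L`, `GR.C.mem_FF_of_coeffMap_mem` gives `y₀ ∈ FF L N`.
* `exists_val`: `y = coeffMap y₀`, `y₀ ∈ FF L N`; `GR.exists_normalized (RL A L) N`: `y₀ = C κ * (f / g)`, `f g` primitive over `RL A L`;
  `RL A L` is a DVR (`GR.E.isDiscreteValuationRing_comap`) with uniformizer `p` (`GT.irreducible_natCast_of_unramAt`,
  `GT.W.Unram_unramAt_of_inertFixed`), so `κ = p ^ k * ε` (`k : ℤ`; write `κ = a / b`, `a b ∈ RL A L`,
  `IsDiscreteValuationRing.eq_unit_mul_pow_irreducible`).  `Prim_coeffMap`, `Prim_C_mul`.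
-/

set_option autoImplicit false
set_option synthInstance.maxHeartbeats 400000

noncomputable section

namespace Fermat.Agent.S15.ATP

open Fermat.Agent.GR Fermat.Agent.GR.E Fermat.Agent.GS Fermat.Agent.GT Fermat.Agent.GT.Brg
  ModularCurve

/-- a function with coefficients in the inertia field is defined over a number field inside the
inertia field. -/
theorem exists_defOver {A : ValuationSubring Qb} (N : ℕ) {y : LaurentSeries Qb} (hy : y ∈ FF Qb N)
    (hfix : IFix A y) :
    ∃ L : IntermediateField ℚ Qb, FiniteDimensional ℚ L ∧ InertFixed A L ∧ BR3_DefOver N L y := by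
  obtain ⟨L₀, hfin, y₁, -, hy₁⟩ := BR3_single N y hy
  let I : IntermediateField ℚ Qb := IntermediateField.fixedField (A.inertiaSubgroupIn ℚ)
  have hle : L₀ ⊓ I ≤ L₀ := inf_le_left
  have hfin' : FiniteDimensional ℚ (L₀ ⊓ I : IntermediateField ℚ Qb) :=
    FiniteDimensional.of_injective (IntermediateField.inclusion hle).toLinearMap
      (IntermediateField.inclusion hle).injective
  refine ⟨L₀ ⊓ I, hfin', ?_, ?_⟩
  · intro τ hτ x
    have hx : (x : Qb) ∈ I := (IntermediateField.mem_inf.1 x.2).2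
    exact (IntermediateField.mem_fixedField_iff _ _).1 hx τ hτ
  · obtain ⟨y₀, hy₀⟩ := C.exists_coeffMap_eq (K := (L₀ ⊓ I : IntermediateField ℚ Qb)) y (by
      intro k
      have h1 : y.coeff k ∈ L₀ := by
        rw [← hy₁, coeffMap_coeff]
        exact (y₁.coeff k).2
      have h2 : y.coeff k ∈ I := by
        rw [IntermediateField.mem_fixedField_iff]
        intro τ hτ
        have := congrArg (fun g : LaurentSeries Qb => g.coeff k) (hfix τ hτ)
        exact this
      exact ⟨⟨y.coeff k, IntermediateField.mem_inf.2 ⟨h1, h2⟩⟩, rfl⟩)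
    refine ⟨y₀, C.mem_FF_of_coeffMap_mem (Ω := Qb) ?_, hy₀⟩
    rw [hy₀]
    exact hy

/-- the image in `Q̄` of a unit of `A ∩ L` is a unit of `A`. -/
theorem Val_valuation_unit {A : ValuationSubring Qb} (L : IntermediateField ℚ Qb)
    (u : (RL A L)ˣ) : A.valuation (algebraMap L Qb ((u : RL A L) : L)) = 1 := by
  have h1 : A.valuation (algebraMap L Qb ((u : RL A L) : L)) ≤ 1 :=
    (A.valuation_le_one_iff _).2 (u : RL A L).2
  have h2 : A.valuation (algebraMap L Qb (((u⁻¹ : (RL A L)ˣ) : RL A L) : L)) ≤ 1 :=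
    (A.valuation_le_one_iff _).2 ((u⁻¹ : (RL A L)ˣ) : RL A L).2
  have h3 : algebraMap L Qb ((u : RL A L) : L) *
      algebraMap L Qb (((u⁻¹ : (RL A L)ˣ) : RL A L) : L) = 1 := by
    rw [← map_mul]
    have : ((u : RL A L) : L) * (((u⁻¹ : (RL A L)ˣ) : RL A L) : L) = 1 := by
      have := congrArg (Subtype.val) (u.mul_inv)
      exact this
    rw [this, map_one]
  have h4 : A.valuation (algebraMap L Qb ((u : RL A L) : L)) *
      A.valuation (algebraMap L Qb (((u⁻¹ : (RL A L)ˣ) : RL A L) : L)) = 1 := by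
    rw [← map_mul, h3, map_one]
  apply le_antisymm h1
  calc (1 : A.ValueGroup) = A.valuation (algebraMap L Qb ((u : RL A L) : L)) *
      A.valuation (algebraMap L Qb (((u⁻¹ : (RL A L)ˣ) : RL A L) : L)) := h4.symm
    _ ≤ A.valuation (algebraMap L Qb ((u : RL A L) : L)) * 1 := by gcongr
    _ = _ := mul_one _

/-- the integral case. -/
theorem Val_exists_pow_mul_unit {p : ℕ} (hp : p.Prime) {A : ValuationSubring Qb}
    (hA : A.LiesOverPrime p) (L : IntermediateField ℚ Qb) [FiniteDimensional ℚ L]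
    (hL : InertFixed A L) {a : RL A L} (ha : a ≠ 0) :
    ∃ (n : ℕ) (ε : Qb), A.valuation ε = 1 ∧ algebraMap L Qb (a : L) = (p : Qb) ^ n * ε := by
  have hdvr : IsDiscreteValuationRing (RL A L) := isDiscreteValuationRing_comap A p hp hA L
  have hirr : Irreducible ((p : ℕ) : RL A L) :=
    irreducible_natCast_of_unramAt hA hp.ne_zero (W.Unram_unramAt_of_inertFixed hp A hA L hL)
  obtain ⟨n, u, hu⟩ := IsDiscreteValuationRing.eq_unit_mul_pow_irreducible ha hirr
  refine ⟨n, algebraMap L Qb ((u : RL A L) : L), Val_valuation_unit L u, ?_⟩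
  rw [hu]
  have : (((u : RL A L) * ((p : ℕ) : RL A L) ^ n : RL A L) : L) = ((u : RL A L) : L) * (p : L) ^ n := by
    push_cast
    rfl
  rw [this, map_mul, map_pow, map_natCast, mul_comm]

/-- the constants of an unramified field: `κ = p ^ k * unit`. -/
theorem exists_zpow_mul_unit {p : ℕ} (hp : p.Prime) {A : ValuationSubring Qb}
    (hA : A.LiesOverPrime p) (L : IntermediateField ℚ Qb) [FiniteDimensional ℚ L]
    (hL : InertFixed A L) {κ : L} (hκ : κ ≠ 0) :
    ∃ (k : ℤ) (ε : Qb), A.valuation ε = 1 ∧ algebraMap L Qb κ = (p : Qb) ^ k * ε := by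
  rcases (RL A L).mem_or_inv_mem κ with h | h
  · obtain ⟨n, ε, hε, he⟩ := Val_exists_pow_mul_unit hp hA L hL (a := ⟨κ, h⟩)
      (fun h0 => hκ (congrArg Subtype.val h0))
    exact ⟨n, ε, hε, by rw [zpow_natCast]; exact he⟩
  · obtain ⟨n, ε, hε, he⟩ := Val_exists_pow_mul_unit hp hA L hL (a := ⟨κ⁻¹, h⟩)
      (fun h0 => inv_ne_zero hκ (congrArg Subtype.val h0))
    refine ⟨-(n : ℤ), ε⁻¹, by rw [map_inv₀, hε, inv_one], ?_⟩
    have he' : (algebraMap L Qb κ)⁻¹ = (p : Qb) ^ n * ε := by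
      rw [← map_inv₀]
      exact he
    rw [zpow_neg, zpow_natCast, ← mul_inv, ← he', inv_inv]

/-- the Gauss valuation of a function with coefficients in the inertia field is an integer. -/
theorem exists_val {p : ℕ} (hp : p.Prime) {A : ValuationSubring Qb} (hA : A.LiesOverPrime p)
    (N : ℕ) {y : LaurentSeries Qb} (hy : y ∈ FF Qb N) (h0 : y ≠ 0) (hfix : IFix A y) :
    ∃ k : ℤ, GUnit A N (HahnSeries.C ((p : Qb) ^ k) * y) := by
  obtain ⟨L, hfin, hL, y₀, hy₀, rfl⟩ := exists_defOver N hy hfix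
  have hy₀0 : y₀ ≠ 0 := by
    rintro rfl
    exact h0 (map_zero _)
  have halg : Algebra.IsAlgebraic ℚ L := Algebra.IsAlgebraic.of_finite ℚ L
  obtain ⟨κ, f, g, hκ, hf, hg, hf', hg', he⟩ := exists_normalized (RL A L) N hy₀ hy₀0
  obtain ⟨k, ε, hε, hk⟩ := exists_zpow_mul_unit hp hA L hL hκ
  have hp0 : (p : Qb) ≠ 0 := Nat.cast_ne_zero.2 hp.ne_zero
  have hG := Prim_coeffMap L hg'
  have hF := Prim_coeffMap L hf'
  refine ⟨-k, HahnSeries.C ε * coeffMap (algebraMap L Qb) f, coeffMap (algebraMap L Qb) g,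
    mul_mem (C_mem_FF ε) (E.coeffMap_mem_FF _ _ hf), E.coeffMap_mem_FF _ _ hg,
    Prim_C_mul hε hF, hG, ?_⟩
  rw [he, map_mul, map_div₀, Descent_coeffMap_C, hk, map_mul HahnSeries.C, mul_assoc,
    mul_assoc, div_mul_cancel₀ _ (Prim_ne_zero hG), ← mul_assoc, ← mul_assoc, ← map_mul HahnSeries.C,
    ← zpow_add₀ hp0, neg_add_cancel, zpow_zero, map_one, one_mul]

end Fermat.Agent.S15.ATP
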